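import Fermat.Agent.A2.H489.GaussFrameA

/-!
# S36 / MOD3 — GAUSS-CHANGE (helper985): change of coordinate for the Gauss property

`R` a local ring, `L` a field over `R`, `V` a valuation subring of `L` lying over `R`
(`A2.H489.IsOver`).  `A2.H489.IsGaussOver R V y` says that the residue of `y` in the residue field
of `V` is transcendental over the residue field of `R`.

* `isAlgebraic_of_isIntegralElem` : in a field extension, integral over `k[a]` with `a` algebraic
  implies algebraic;
* `isGaussOver_of_isIntegralElem` : **GAUSS-CHANGE**.  If `y` is Gauss at `V`, `x ∈ V` and `y` is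
  integral over `R[x]`, then `x` is Gauss at `V`;
* `isGaussOver_of_mem_adjoin_integral` : the same with `IsIntegral (Algebra.adjoin R {x}) y`;
* `inv_aeval_mem_of_isGaussOver` : the elementwise form used by `A2.H12.IsSheet` and by the fields
  `gauss_i` of `S36.Eng.TripleCtx`.

Mathlib + `A2.H489` (definitions `IsOver`, `IsGaussOver`) only.
-/

set_option autoImplicit false
set_option linter.unusedSectionVars false
set_option linter.style.haveILetI false

noncomputable section

namespace Fermat.Agent.S36.Mod3.H985

open Polynomial IsLocalRing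
open Fermat.Agent.A2

/-! ## The residue-field statement -/

section Residue

variable {k κ : Type*} [Field k] [Field κ] [Algebra k κ]

/-- In a field extension `κ / k`: if `b` is a root of a monic polynomial whose coefficients are
polynomials in `a`, and `a` is algebraic over `k`, then `b` is algebraic over `k`. -/
theorem isAlgebraic_of_isIntegralElem {a b : κ} (ha : IsAlgebraic k a)
    (hb : ∃ G : Polynomial (Polynomial k), G.Monic ∧
      G.eval₂ (Polynomial.eval₂RingHom (algebraMap k κ) a) b = 0) : IsAlgebraic k b := by
  obtain ⟨G, hG, hGb⟩ := hb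
  have haC : a ∈ integralClosure k κ := ha.isIntegral
  set g : Polynomial k →+* integralClosure k κ :=
    (Polynomial.aeval (⟨a, haC⟩ : integralClosure k κ)).toRingHom with hg
  have hcomp : (algebraMap (integralClosure k κ) κ).comp g =
      Polynomial.eval₂RingHom (algebraMap k κ) a := by
    apply Polynomial.ringHom_ext
    · intro c
      simp [hg]
    · simp [hg]
  have hint : IsIntegral (integralClosure k κ) b := by
    refine ⟨G.map g, hG.map g, ?_⟩
    rw [Polynomial.eval₂_map, hcomp]
    exact hGb
  exact (isIntegral_trans b hint).isAlgebraic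

end Residue

/-! ## GAUSS-CHANGE -/

section Main

variable {R L : Type*} [CommRing R] [IsLocalRing R] [Field L] [Algebra R L]
  {V : ValuationSubring L}

/-- The residue map of `V` on the image of `R`. -/
def resMap (hV : H489.IsOver R V) : R →+* ResidueField V :=
  (residue V).comp (H489.toValSub V hV.mem)

theorem resMap_eq_zero (hV : H489.IsOver R V) {r : R} (hr : r ∈ maximalIdeal R) :
    resMap hV r = 0 := by
  rw [resMap, RingHom.comp_apply, residue_eq_zero_iff]
  have h := hV.nonunit r hr
  rw [ValuationSubring.mem_nonunits_iff_exists_mem_maximalIdeal] at h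
  obtain ⟨_, h⟩ := h
  exact h

theorem isLocalHom_resMap (hV : H489.IsOver R V) : IsLocalHom (resMap hV) :=
  ⟨fun a ha => by
    by_contra hna
    have hm : a ∈ maximalIdeal R := (mem_maximalIdeal a).mpr hna
    rw [resMap_eq_zero hV hm] at ha
    exact not_isUnit_zero ha⟩

/-- The induced map of residue fields `k(R) → k(V)`. -/
def resLift (hV : H489.IsOver R V) : ResidueField R →+* ResidueField V :=
  haveI := isLocalHom_resMap hV
  ResidueField.lift (resMap hV)

theorem resLift_comp_residue (hV : H489.IsOver R V) :
    (resLift hV).comp (residue R) = resMap hV := by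
  haveI := isLocalHom_resMap hV
  exact ResidueField.lift_comp_residue (resMap hV)

theorem resLift_residue (hV : H489.IsOver R V) (r : R) :
    resLift hV (residue R r) = resMap hV r := by
  rw [← resLift_comp_residue hV]
  rfl

/-- the residue of `P(z)`, `z ∈ V`, `P ∈ R[X]` -/
theorem residue_aeval (hV : H489.IsOver R V) (z : V) (P : R[X])
    (h : aeval (z : L) P ∈ V) :
    residue V ⟨aeval (z : L) P, h⟩ =
      (P.map (residue R)).eval₂ (resLift hV) (residue V z) := by
  rw [Polynomial.eval₂_map, resLift_comp_residue, resMap, ← Polynomial.hom_eval₂]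
  congr 1
  apply Subtype.ext
  have h1 := Polynomial.hom_eval₂ P (H489.toValSub V hV.mem) V.subtype z
  have h2 : V.subtype.comp (H489.toValSub V hV.mem) = algebraMap R L := by
    ext r
    rfl
  rw [h2] at h1
  show aeval (z : L) P = V.subtype (eval₂ (H489.toValSub V hV.mem) z P)
  rw [h1]
  rfl

/-- the residue of `G(x, y)`, `x y ∈ V`, `G ∈ R[X][Y]` -/
theorem residue_eval₂_eval₂ (hV : H489.IsOver R V) (x y : V) (G : Polynomial (Polynomial R))
    (h0 : G.eval₂ (Polynomial.eval₂RingHom (algebraMap R L) (x : L)) (y : L) = 0) :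
    (G.map (Polynomial.mapRingHom (residue R))).eval₂
      (Polynomial.eval₂RingHom (resLift hV) (residue V x)) (residue V y) = 0 := by
  -- the identity holds in `V`
  have hV0 : G.eval₂ (Polynomial.eval₂RingHom (H489.toValSub V hV.mem) x) y = 0 := by
    apply Subtype.ext
    have h1 := Polynomial.hom_eval₂ G (Polynomial.eval₂RingHom (H489.toValSub V hV.mem) x)
      V.subtype y
    have h2 : V.subtype.comp (Polynomial.eval₂RingHom (H489.toValSub V hV.mem) x) =
        Polynomial.eval₂RingHom (algebraMap R L) (x : L) := by
      apply Polynomial.ringHom_ext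
      · intro r
        simp
      · simp
    rw [h2] at h1
    show V.subtype (eval₂ (Polynomial.eval₂RingHom (H489.toValSub V hV.mem) x) y G) = 0
    rw [h1]
    exact h0
  have h3 := Polynomial.hom_eval₂ G (Polynomial.eval₂RingHom (H489.toValSub V hV.mem) x)
    (residue V) y
  rw [hV0, map_zero] at h3
  rw [Polynomial.eval₂_map]
  have h4 : (Polynomial.eval₂RingHom (resLift hV) (residue V x)).comp
      (Polynomial.mapRingHom (residue R)) =
      (residue V).comp (Polynomial.eval₂RingHom (H489.toValSub V hV.mem) x) := by
    apply Polynomial.ringHom_ext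
    · intro r
      simp [resLift_residue, resMap]
    · simp
  rw [h4]
  exact h3.symm

/-- **GAUSS-CHANGE.**  If `y` is Gauss at `V` (its residue is transcendental over the residue
field of `R`), `x ∈ V`, and `y` is integral over `R[x]`, then `x` is Gauss at `V`. -/
theorem isGaussOver_of_isIntegralElem {x y : L} (hy : H489.IsGaussOver R V y) (hx : x ∈ V)
    (hint : ∃ G : Polynomial (Polynomial R), G.Monic ∧
      G.eval₂ (Polynomial.eval₂RingHom (algebraMap R L) x) y = 0) :
    H489.IsGaussOver R V x where
  isOver := hy.isOver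
  mem := hx
  prim := by
    intro P hP
    by_contra hne
    have hV := hy.isOver
    letI : Algebra (ResidueField R) (ResidueField V) := (resLift hV).toAlgebra
    have halg : algebraMap (ResidueField R) (ResidueField V) = resLift hV := rfl
    -- the residue of `x` is algebraic
    have hxa : IsAlgebraic (ResidueField R) (residue V ⟨x, hx⟩) := by
      refine ⟨P.map (residue R), hne, ?_⟩
      rw [Polynomial.aeval_def, halg]
      have h1 := residue_aeval hV ⟨x, hx⟩ P (hV.aeval_mem hx P)
      rw [← h1, residue_eq_zero_iff]
      rw [ValuationSubring.mem_nonunits_iff_exists_mem_maximalIdeal] at hP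
      obtain ⟨_, hP⟩ := hP
      exact hP
    -- hence so is the residue of `y`
    obtain ⟨G, hG, hGy⟩ := hint
    have hya : IsAlgebraic (ResidueField R) (residue V ⟨y, hy.mem⟩) := by
      refine isAlgebraic_of_isIntegralElem hxa
        ⟨G.map (Polynomial.mapRingHom (residue R)), hG.map _, ?_⟩
      rw [halg]
      exact residue_eval₂_eval₂ hV ⟨x, hx⟩ ⟨y, hy.mem⟩ G hGy
    obtain ⟨Qb, hQb0, hQb⟩ := hya
    obtain ⟨Q, rfl⟩ := Polynomial.map_surjective (residue R) residue_surjective Qb
    apply hQb0
    apply hy.prim Q
    rw [ValuationSubring.mem_nonunits_iff_exists_mem_maximalIdeal]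
    refine ⟨hy.aeval_mem Q, ?_⟩
    rw [← residue_eq_zero_iff, residue_aeval hV ⟨y, hy.mem⟩ Q (hy.aeval_mem Q)]
    rw [Polynomial.aeval_def, halg] at hQb
    exact hQb

/-- a monic equation over `R[X]` from integrality over `Algebra.adjoin R {x}` -/
theorem exists_monic_of_isIntegral_adjoin {R L : Type*} [CommRing R] [Field L] [Algebra R L]
    {x y : L} (h : IsIntegral (Algebra.adjoin R ({x} : Set L)) y) :
    ∃ G : Polynomial (Polynomial R), G.Monic ∧
      G.eval₂ (Polynomial.eval₂RingHom (algebraMap R L) x) y = 0 := by
  obtain ⟨p, hp, hpy⟩ := h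
  set xA : Algebra.adjoin R ({x} : Set L) := ⟨x, Algebra.subset_adjoin rfl⟩ with hxA
  set ψ : Polynomial R →+* Algebra.adjoin R ({x} : Set L) :=
    (Polynomial.aeval xA).toRingHom with hψ
  have hsurj : Function.Surjective ψ := by
    rintro ⟨a, ha⟩
    rw [Algebra.adjoin_singleton_eq_range_aeval] at ha
    obtain ⟨c, hc⟩ := ha
    refine ⟨c, Subtype.ext ?_⟩
    have h1 : ((Polynomial.aeval xA c : Algebra.adjoin R ({x} : Set L)) : L) =
        Polynomial.aeval x c := by
      rw [hxA]
      exact Polynomial.aeval_subalgebra_coe c _ _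
    show ((Polynomial.aeval xA c : Algebra.adjoin R ({x} : Set L)) : L) = a
    rw [h1]
    exact hc
  have hlift : p ∈ Polynomial.lifts ψ := by
    rw [Polynomial.lifts_iff_coeff_lifts]
    intro n
    exact hsurj _
  obtain ⟨G, hGp, -, hGm⟩ := Polynomial.lifts_and_natDegree_eq_and_monic hlift hp
  refine ⟨G, hGm, ?_⟩
  have h2 : (algebraMap (Algebra.adjoin R ({x} : Set L)) L).comp ψ =
      Polynomial.eval₂RingHom (algebraMap R L) x := by
    apply Polynomial.ringHom_ext
    · intro r
      simp [hψ]
    · simp [hψ, hxA]
  rw [← h2, ← Polynomial.eval₂_map, hGp]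
  exact hpy

/-- **GAUSS-CHANGE**, chart form. -/
theorem isGaussOver_of_isIntegral_adjoin {x y : L} (hy : H489.IsGaussOver R V y) (hx : x ∈ V)
    (hint : IsIntegral (Algebra.adjoin R ({x} : Set L)) y) : H489.IsGaussOver R V x :=
  isGaussOver_of_isIntegralElem hy hx (exists_monic_of_isIntegral_adjoin hint)

/-- Elementwise form of the Gauss property (the shape of `A2.H12.IsSheet` and of the fields
`gauss_i` of `S36.Eng.TripleCtx`): `w` a generator of the maximal ideal of `R`. -/
theorem inv_aeval_mem_of_isGaussOver {x : L} (hx : H489.IsGaussOver R V x) {w : R}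
    (hw : maximalIdeal R = Ideal.span {w}) (P : R[X]) (hP : ∃ i, ¬ w ∣ P.coeff i) :
    (aeval x P)⁻¹ ∈ V := by
  apply hx.inv_aeval_mem
  intro h0
  obtain ⟨i, hi⟩ := hP
  apply hi
  have h1 := (H489.map_residue_eq_zero_iff P).mp h0 i
  rw [hw, Ideal.mem_span_singleton] at h1
  exact h1

end Main

end Fermat.Agent.S36.Mod3.H985

end
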