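import Fermat.Agent.S36.Mod3.Spec
import Fermat.Agent.S36.Mod3.H985.GaussChange
import Fermat.Agent.A2.Mod.H13.Frame
import Fermat.Agent.A2.Mod.H873.L13
import Fermat.Agent.A2.Mod.H31.DegField
import Fermat.Agent.A2.Mod.H553.Fricke
import Fermat.Agent.A2.Mod.H553.VzeroNe
import Fermat.Agent.S28.H807.Analytic

/-!
# S36 / MOD3 — leaf SHEET (helper985)

`leafSheet : Mod3.LeafSheet` (EXACT frozen type of `Mod3/Spec.lean`): the three valuation rings
`V₁` (`FF`), `V₂` (`mid`), `V₃` (`VV`) of `F = F_E(M q q)` contain `R = R_E` and induce the Gauss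
valuation on `R[x]`, `x = j · j_q · j_{q²}`.

* `V₁ = V∞`: L3 (`A2.Mod.H816.vinfGauss`, via `H13.isGaussOver_of_polar`), `x` is polar of order
  `1 + q + q²`;
* `V₃ = V₁.comap W`: L3 for `W x = j_{Mq²} j_{Mq} j_M`, polar of order `M q² + M q + M`;
* `V₂`: ANY valuation ring `V` of `F` with `V.comap α = V∞(M q)` (no Eisenstein data, no table):
  `j = α j` is Gauss at `V` (L3 at level `M q`), `j` is integral over `ℤ[x]` (valuative criterion,
  `Φ_q` monic), and GAUSS-CHANGE (`GaussChange.lean`) transports the Gauss property from `j` to `x`.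

Also exported (for the completeness route of QEP3 and for other leaves):
`isGaussOver_x3_of_comap`, `j1_isIntegralElem_x3`, `x3E_mem_of_j_mem`, `transcendental_x3E`.
-/

set_option autoImplicit false
set_option linter.style.haveILetI false
set_option linter.unusedSectionVars false
set_option synthInstance.maxHeartbeats 400000
set_option maxHeartbeats 1600000

noncomputable section

namespace Fermat.Agent.S36.Mod3.H985

open ModularCurve HahnSeries Polynomial
open Fermat.Agent.A2.Mod

/-! ## Generalities -/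

section General

/-- Nonunits of the pull-back of a valuation ring along a field homomorphism. -/
theorem mem_nonunits_comap_hom {F' F : Type*} [Field F'] [Field F] (V : ValuationSubring F)
    (φ : F' →+* F) (f : F') : f ∈ (V.comap φ).nonunits ↔ φ f ∈ V.nonunits := by
  rw [ValuationSubring.mem_nonunits_iff_or, ValuationSubring.mem_nonunits_iff_or,
    ValuationSubring.mem_comap]
  constructor
  · rintro (h | h)
    · left
      rw [h, map_zero]
    · right
      intro h'
      apply h
      show φ f⁻¹ ∈ V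
      rw [map_inv₀]
      exact h'
  · rintro (h | h)
    · left
      exact (map_eq_zero φ).mp h
    · right
      intro h'
      apply h
      have h'' : φ f⁻¹ ∈ V := h'
      rwa [map_inv₀] at h''

variable (E : IntermediateField ℚ Qb) {N : ℕ}

/-- a polar element is transcendental over `E` -/
theorem transcendental_of_isPolar {u : FE E N} {a : ℕ} (ha : 0 < a)
    (hu : H13.IsPolar E N u a) : Transcendental E u := by
  obtain ⟨g, hg, e⟩ := hu
  have hc : (u : LaurentSeries E).coeff (-(a : ℤ)) ≠ 0 := by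
    rw [e, H553.coeff_coeffEmb_castQ, hg.2]
    simp
  have hord : (u : LaurentSeries E).order < 0 := by
    have h1 := HahnSeries.order_le_of_coeff_ne_zero hc
    have h2 : (-(a : ℤ)) < 0 := by
      have : (0 : ℤ) < a := by exact_mod_cast ha
      omega
    exact lt_of_le_of_lt h1 h2
  have htr := H31.transcendental_of_order_neg hord
  intro halg
  exact htr ((IntermediateField.isAlgebraic_iff (S := FE E N)).mp halg)

end General

/-! ## The modular polynomial at the level `N` -/

section ModPoly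

variable (E : IntermediateField ℚ Qb) (N q : ℕ) [NeZero q]

/-- `Φ_q(X = j_{dq}; Y = j_d) = 0`: `j_{dq}` is integral over `ℤ[j_d]`. -/
theorem modPoly_up (D : S28.ModPolyData q) (d : ℕ) [NeZero d] [NeZero (d * q)] (hd : d ∣ N)
    (hdq : d * q ∣ N) :
    D.Φ.eval₂ (Polynomial.aeval (R := ℤ) (jE E N d hd)).toRingHom (jE E N (d * q) hdq) = 0 := by
  refine H873.eval₂_eq_zero_of_int E N D.Φ _ _ (qExpand ℤ (d * q) (jqModC ℤ))
    (qExpand ℤ d (jqModC ℤ)) (H873.coe_jE_int E N (d * q) hdq) (H873.coe_jE_int E N d hd) ?_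
  have h := congrArg (qExpand ℤ d) D.eval_jp
  rw [map_zero, Polynomial.hom_eval₂, qExpand_qExpand] at h
  have hcomp : (qExpand ℤ d).comp (S28.evalAt (jqModC ℤ)) =
      S28.evalAt (qExpand ℤ d (jqModC ℤ)) := by
    apply Polynomial.ringHom_ext
    · intro n
      simp [S28.evalAt]
    · simp [S28.evalAt]
  rw [hcomp] at h
  exact h

/-- `Φ_q(X = j_d; Y = j_{dq}) = 0`: `j_d` is integral over `ℤ[j_{dq}]`. -/
theorem modPoly_down (D : S28.ModPolyData q) (d : ℕ) [NeZero d] [NeZero (d * q)] (hd : d ∣ N)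
    (hdq : d * q ∣ N) :
    D.Φ.eval₂ (Polynomial.aeval (R := ℤ) (jE E N (d * q) hdq)).toRingHom (jE E N d hd) = 0 := by
  refine H873.eval₂_eq_zero_of_int E N D.Φ _ _ (qExpand ℤ d (jqModC ℤ))
    (qExpand ℤ (d * q) (jqModC ℤ)) (H873.coe_jE_int E N d hd) (H873.coe_jE_int E N (d * q) hdq) ?_
  have h := congrArg (qExpand ℤ d) D.eval_j
  rw [map_zero, Polynomial.hom_eval₂] at h
  have hcomp : (qExpand ℤ d).comp (S28.evalAt (qExpand ℤ q (jqModC ℤ))) =
      S28.evalAt (qExpand ℤ (d * q) (jqModC ℤ)) := by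
    apply Polynomial.ringHom_ext
    · intro n
      simp [S28.evalAt]
    · simp [S28.evalAt, qExpand_qExpand]
  rw [hcomp] at h
  exact h

/-- `Φ_q(X = j_e; Y = j_d) = 0` for `e = d q`. -/
theorem modPoly_up' (D : S28.ModPolyData q) (d e : ℕ) [NeZero d] [NeZero e] (hde : e = d * q)
    (hd : d ∣ N) (he : e ∣ N) :
    D.Φ.eval₂ (Polynomial.aeval (R := ℤ) (jE E N d hd)).toRingHom (jE E N e he) = 0 := by
  subst hde
  exact modPoly_up E N q D d hd he

/-- `Φ_q(X = j_d; Y = j_e) = 0` for `e = d q`. -/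
theorem modPoly_down' (D : S28.ModPolyData q) (d e : ℕ) [NeZero d] [NeZero e] (hde : e = d * q)
    (hd : d ∣ N) (he : e ∣ N) :
    D.Φ.eval₂ (Polynomial.aeval (R := ℤ) (jE E N e he)).toRingHom (jE E N d hd) = 0 := by
  subst hde
  exact modPoly_down E N q D d hd he

end ModPoly

/-! ## The coordinate `x = j · j_q · j_{q²}` -/

section Coord

variable (P : ValuationSubring A2.Qb) (E : IntermediateField ℚ A2.Qb) (M q : ℕ)
  [NeZero M] [NeZero q] [NeZero (M * q)]

theorem isPolar_x3E : H13.IsPolar E (M * q * q) (x3E E M q) (1 + q + q * q) :=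
  ((H13.isPolar_jE 1 _).mul (H13.isPolar_jE q _)).mul (H13.isPolar_jE (q * q) _)

/-- `x = j j_q j_{q²}` is transcendental over `E`. -/
theorem transcendental_x3E : Transcendental E (x3E E M q) :=
  transcendental_of_isPolar E (by omega) (isPolar_x3E E M q)

theorem isPolar_fricke_x3E {W : FE E (M * q * q) ≃ₐ[E] FE E (M * q * q)}
    (hW : IsFricke E (M * q * q) W) :
    H13.IsPolar E (M * q * q) (W (x3E E M q)) (M * q * q + M * q + M) := by
  have h1 : W (j1 E M q) = jE E (M * q * q) (M * q * q) (dvd_refl _) :=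
    hW.1 1 (M * q * q) (one_dvd _) (dvd_refl _) (one_mul _)
  have h2 : W (jq E M q) = jE E (M * q * q) (M * q) (dvd_mul_right _ _) :=
    hW.1 q (M * q) (Dvd.intro_left (M * q) rfl) (dvd_mul_right _ _) (by ring)
  have h3 : W (jqq E M q) = jE E (M * q * q) M ⟨q * q, by ring⟩ :=
    hW.1 (q * q) M ⟨M, by ring⟩ ⟨q * q, by ring⟩ (by ring)
  rw [x3E, map_mul, map_mul, h1, h2, h3]
  exact ((H13.isPolar_jE _ _).mul (H13.isPolar_jE _ _)).mul (H13.isPolar_jE _ _)

theorem α_j1 : αE E (M * q) q (jE E (M * q) 1 (one_dvd _)) = j1 E M q :=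
  H553.αE_jE E (M * q) q 1 (one_dvd _)

theorem α_jq : αE E (M * q) q (jE E (M * q) q (dvd_mul_left q M)) = jq E M q :=
  H553.αE_jE E (M * q) q q (dvd_mul_left q M)

/-- `j_{q²}` is integral over `ℤ[j_q]`. -/
theorem jqq_mem_of_jq_mem (hq : q.Prime) (V : ValuationSubring (FE E (M * q * q)))
    (h : jq E M q ∈ V) : jqq E M q ∈ V := by
  obtain ⟨D⟩ := S28.H807.nonempty_modPolyData q hq
  exact H873.mem_valuationSubring_of_monic_eval D.Φ D.monic
    (modPoly_up' E (M * q * q) q D q (q * q) rfl (Dvd.intro_left (M * q) rfl) ⟨M, by ring⟩) V h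

/-- `j_q` is integral over `ℤ[j]`. -/
theorem jq_mem_of_j1_mem (hq : q.Prime) (V : ValuationSubring (FE E (M * q * q)))
    (h : j1 E M q ∈ V) : jq E M q ∈ V := by
  obtain ⟨D⟩ := S28.H807.nonempty_modPolyData q hq
  exact H873.mem_valuationSubring_of_monic_eval D.Φ D.monic
    (modPoly_up' E (M * q * q) q D 1 q (one_mul q).symm (one_dvd _) (Dvd.intro_left (M * q) rfl))
    V h

/-- `j` is integral over `ℤ[j_q]`. -/
theorem j1_mem_of_jq_mem (hq : q.Prime) (V : ValuationSubring (FE E (M * q * q)))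
    (h : jq E M q ∈ V) : j1 E M q ∈ V := by
  obtain ⟨D⟩ := S28.H807.nonempty_modPolyData q hq
  exact H873.mem_valuationSubring_of_monic_eval D.Φ D.monic
    (modPoly_down' E (M * q * q) q D 1 q (one_mul q).symm (one_dvd _)
      (Dvd.intro_left (M * q) rfl)) V h

/-- `j_q` is integral over `ℤ[j_{q²}]`. -/
theorem jq_mem_of_jqq_mem (hq : q.Prime) (V : ValuationSubring (FE E (M * q * q)))
    (h : jqq E M q ∈ V) : jq E M q ∈ V := by
  obtain ⟨D⟩ := S28.H807.nonempty_modPolyData q hq
  exact H873.mem_valuationSubring_of_monic_eval D.Φ D.monic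
    (modPoly_down' E (M * q * q) q D q (q * q) rfl (Dvd.intro_left (M * q) rfl) ⟨M, by ring⟩) V h

/-- `x ∈ V` as soon as `j ∈ V`. -/
theorem x3E_mem_of_j_mem (hq : q.Prime) (V : ValuationSubring (FE E (M * q * q)))
    (h : j1 E M q ∈ V) : x3E E M q ∈ V := by
  have h2 := jq_mem_of_j1_mem E M q hq V h
  exact V.mul_mem _ _ (V.mul_mem _ _ h h2) (jqq_mem_of_jq_mem E M q hq V h2)

/-- valuative criterion: a valuation ring containing `x = j j_q j_{q²}` contains `j`. -/
theorem j1_mem_of_x3E_mem (hq : q.Prime) (V : ValuationSubring (FE E (M * q * q)))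
    (hx : x3E E M q ∈ V) : j1 E M q ∈ V := by
  by_contra h1
  have h1i : (j1 E M q)⁻¹ ∈ V := (V.mem_or_inv_mem _).resolve_left h1
  have hq' : jq E M q ∉ V := fun h => h1 (j1_mem_of_jq_mem E M q hq V h)
  have hqi : (jq E M q)⁻¹ ∈ V := (V.mem_or_inv_mem _).resolve_left hq'
  have hqq : jqq E M q ∉ V := fun h => hq' (jq_mem_of_jqq_mem E M q hq V h)
  apply hqq
  have hj0 : j1 E M q ≠ 0 := H873.jE_ne_zero E (M * q * q) 1 (one_dvd _)
  have hq0 : jq E M q ≠ 0 := H873.jE_ne_zero E (M * q * q) q (Dvd.intro_left (M * q) rfl)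
  have e : jqq E M q = x3E E M q * (j1 E M q)⁻¹ * (jq E M q)⁻¹ := by
    rw [x3E]
    field_simp
  rw [e]
  exact V.mul_mem _ _ (V.mul_mem _ _ hx h1i) hqi

/-- … and `j_q`, `j_{q²}`. -/
theorem jq_mem_of_x3E_mem (hq : q.Prime) (V : ValuationSubring (FE E (M * q * q)))
    (hx : x3E E M q ∈ V) : jq E M q ∈ V :=
  jq_mem_of_j1_mem E M q hq V (j1_mem_of_x3E_mem E M q hq V hx)

theorem jqq_mem_of_x3E_mem (hq : q.Prime) (V : ValuationSubring (FE E (M * q * q)))
    (hx : x3E E M q ∈ V) : jqq E M q ∈ V :=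
  jqq_mem_of_jq_mem E M q hq V (jq_mem_of_x3E_mem E M q hq V hx)

/-- `j` is integral over `R[x]`, `x = j j_q j_{q²}`. -/
theorem j1_isIntegralElem_x3 (hq : q.Prime) :
    ∃ G : Polynomial (Polynomial (RE P E)), G.Monic ∧
      G.eval₂ (Polynomial.eval₂RingHom (algebraMap (RE P E) (FE E (M * q * q))) (x3E E M q))
        (j1 E M q) = 0 :=
  H873.isIntegralElem_of_isIntegral_closure _
    (H873.isIntegral_closure_of_forall_valuationSubring (j1_mem_of_x3E_mem E M q hq))

end Coord

/-! ## The Gauss property of the three valuation rings -/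

section Gauss

variable (P : ValuationSubring A2.Qb) (E : IntermediateField ℚ A2.Qb) (M q : ℕ)
  [NeZero M] [NeZero q] [NeZero (M * q)] [IsDiscreteValuationRing (RE P E)]

/-- `V₁ = V∞` is Gauss for `x`. -/
theorem isGaussOver_x3_vinf {w : RE P E} (hw : Irreducible w)
    {V : ValuationSubring (FE E (M * q * q))} (hV : IsVinf P E (M * q * q) V) :
    A2.H489.IsGaussOver (RE P E) V (x3E E M q) :=
  H13.isGaussOver_of_polar hV hw (NeZero.ne _) (by omega) (isPolar_x3E E M q)
    (H13.transcendental_RE (transcendental_x3E E M q))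

/-- `V₃ = V∞ ∘ W` is Gauss for `x`. -/
theorem isGaussOver_x3_vzero {w : RE P E} (hw : Irreducible w)
    {V : ValuationSubring (FE E (M * q * q))} (hV : IsVinf P E (M * q * q) V)
    {W : FE E (M * q * q) ≃ₐ[E] FE E (M * q * q)} (hW : IsFricke E (M * q * q) W) :
    A2.H489.IsGaussOver (RE P E)
      (V.comap (W : FE E (M * q * q) →+* FE E (M * q * q))) (x3E E M q) :=
  H13.isGaussOver_comap hV W
    (H13.isGaussOver_of_polar hV hw (NeZero.ne _)
      (Nat.add_pos_right _ (Nat.pos_of_ne_zero (NeZero.ne M)))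
      (isPolar_fricke_x3E E M q hW)
      (H13.transcendental_RE (H13.transcendental_algEquiv W (transcendental_x3E E M q))))

theorem α_algebraMap_RE (r : RE P E) :
    (αE E (M * q) q : FE E (M * q) →+* FE E (M * q * q)) (algebraMap (RE P E) (FE E (M * q)) r) =
      algebraMap (RE P E) (FE E (M * q * q)) r := by
  rw [H13.algebraMap_RE_eq, H13.algebraMap_RE_eq]
  exact (αE E (M * q) q).commutes _

/-- a valuation ring of `F` over `V∞(M q)` (along `α`) lies over `R`. -/
theorem isOver_of_comap {V' : ValuationSubring (FE E (M * q))} (hV' : IsVinf P E (M * q) V')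
    {V : ValuationSubring (FE E (M * q * q))}
    (hcomap : V.comap (αE E (M * q) q : FE E (M * q) →+* FE E (M * q * q)) = V') :
    A2.H489.IsOver (RE P E) V where
  mem := fun r => by
    have h := (H13.isOver_of_isVinf hV').mem r
    rw [← hcomap, ValuationSubring.mem_comap, α_algebraMap_RE] at h
    exact h
  nonunit := fun r hr => by
    have h := (H13.isOver_of_isVinf hV').nonunit r hr
    rw [← hcomap, mem_nonunits_comap_hom, α_algebraMap_RE] at h
    exact h

/-- `j` is Gauss at every valuation ring of `F` over `V∞(M q)`. -/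
theorem isGaussOver_j1_of_comap {w : RE P E} (hw : Irreducible w)
    {V' : ValuationSubring (FE E (M * q))} (hV' : IsVinf P E (M * q) V')
    {V : ValuationSubring (FE E (M * q * q))}
    (hcomap : V.comap (αE E (M * q) q : FE E (M * q) →+* FE E (M * q * q)) = V') :
    A2.H489.IsGaussOver (RE P E) V (j1 E M q) := by
  have hG' : A2.H489.IsGaussOver (RE P E) V' (jE E (M * q) 1 (one_dvd _)) :=
    H13.isGaussOver_of_polar hV' hw (NeZero.ne _) one_pos (H13.isPolar_jE 1 (one_dvd _))
      (H13.transcendental_RE (transcendental_of_isPolar E one_pos (H13.isPolar_jE 1 (one_dvd _))))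
  refine ⟨isOver_of_comap P E M q hV' hcomap, ?_, ?_⟩
  · have h := hG'.mem
    rw [← hcomap, ValuationSubring.mem_comap] at h
    have e : (αE E (M * q) q : FE E (M * q) →+* FE E (M * q * q))
        (jE E (M * q) 1 (one_dvd _)) = j1 E M q := α_j1 E M q
    rw [e] at h
    exact h
  · intro Q hQ
    apply hG'.prim Q
    rw [← hcomap, mem_nonunits_comap_hom]
    have e : (αE E (M * q) q : FE E (M * q) →+* FE E (M * q * q))
        (aeval (jE E (M * q) 1 (one_dvd _)) Q) = aeval (j1 E M q) Q := by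
      have h1 := Polynomial.aeval_algHom_apply ((αE E (M * q) q).restrictScalars (RE P E))
        (jE E (M * q) 1 (one_dvd _)) Q
      have h2 : ((αE E (M * q) q).restrictScalars (RE P E)) (jE E (M * q) 1 (one_dvd _)) =
          j1 E M q := α_j1 E M q
      rw [h2] at h1
      exact h1.symm
    rw [e]
    exact hQ

/-- **`x = j j_q j_{q²}` is Gauss at EVERY valuation ring of `F` over `V∞(M q)` along `α`**
(in particular at `V₁` and at the middle valuation ring `V₂`). -/
theorem isGaussOver_x3_of_comap (hq : q.Prime) {w : RE P E} (hw : Irreducible w)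
    {V' : ValuationSubring (FE E (M * q))} (hV' : IsVinf P E (M * q) V')
    {V : ValuationSubring (FE E (M * q * q))}
    (hcomap : V.comap (αE E (M * q) q : FE E (M * q) →+* FE E (M * q * q)) = V') :
    A2.H489.IsGaussOver (RE P E) V (x3E E M q) := by
  have hj := isGaussOver_j1_of_comap P E M q hw hV' hcomap
  exact isGaussOver_of_isIntegralElem hj (x3E_mem_of_j_mem E M q hq V hj.mem)
    (j1_isIntegralElem_x3 P E M q hq)

end Gauss

/-! ## The leaf -/

/-- **SHEET (leaf)**, exact frozen type. -/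
theorem leafSheet : Mod3.LeafSheet := by
  intro P E M q _ _ _ w hS V₁' V₂' V₁ V₂ V₃ W' W hO
  haveI : IsDiscreteValuationRing (RE P E) := hS.unram.1.dvr
  have hmax : IsLocalRing.maximalIdeal (RE P E) = Ideal.span {w} := hS.unif.maximalIdeal_eq
  have hG₁ : A2.H489.IsGaussOver (RE P E) V₁ (x3E E M q) :=
    isGaussOver_x3_vinf P E M q hS.unif hO.vinf
  have hG₂ : A2.H489.IsGaussOver (RE P E) V₂ (x3E E M q) :=
    isGaussOver_x3_of_comap P E M q hS.q_prime hS.unif hO.vinf' hO.mid
  have hG₃ : A2.H489.IsGaussOver (RE P E) V₃ (x3E E M q) := by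
    rw [hO.vzero]
    exact isGaussOver_x3_vzero P E M q hS.unif hO.vinf hO.fricke
  exact ⟨hG₁.isOver.mem, hG₂.isOver.mem, hG₃.isOver.mem,
    inv_aeval_mem_of_isGaussOver hG₁ hmax, inv_aeval_mem_of_isGaussOver hG₂ hmax,
    inv_aeval_mem_of_isGaussOver hG₃ hmax⟩

end Fermat.Agent.S36.Mod3.H985

end
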